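/-
S48 (Deligne–Serre), brick D, arithmetic half (D2): the analytic INPUT structure.

`DivData ℓ` packages what the analytic half (D1) has to provide about the weight one
"division values" `E_(a,b)(τ) = E₁((aτ+b)/ℓ; τ) + 2πi a/ℓ` of level `ℓ`:

* the slash law under all of `SL(2, ℤ)`,
* dependence on `(a, b)` modulo `ℓ` only,
* holomorphy of `E_(0,b)`,
* boundedness at `i∞` of `E_(a,b)` for `0 ≤ a < ℓ`,
* the `q`-expansion of `E_(0,b)`.

Everything is only required away from `(a, b) ∈ ℓℤ²`.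
-/
import Mathlib

set_option autoImplicit false

namespace Fermat.Agent.S48.Eis1Arith

open UpperHalfPlane ModularForm Complex
open scoped MatrixGroups Manifold Real

noncomputable section

/-- The Fourier coefficients at `i∞` of the division value `E_(0,b)` of level `ℓ`:
`π cot(π b/ℓ)` for `N = 0` and `4π ∑_{n ∣ N} sin(2π n b/ℓ)` for `N ≥ 1`. -/
def divCoeff (ℓ : ℕ) (b : ℤ) (N : ℕ) : ℂ :=
  if N = 0 then π * Complex.cot (π * b / ℓ)
  else 4 * π * ∑ n ∈ N.divisors, Complex.sin (2 * π * n * b / ℓ)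

/-- The analytic input of the arithmetic half of brick D: the weight one division values
`E a b = E_(a,b)` of level `ℓ`, with their transformation law, their periodicity in `(a, b)`,
holomorphy, boundedness at `i∞` and the `q`-expansion of the `E_(0,b)`. -/
structure DivData (ℓ : ℕ) where
  /-- the division value `E_(a,b)` -/
  E : ℤ → ℤ → ℍ → ℂ
  slash : ∀ (a b : ℤ) (γ : SL(2, ℤ)), ¬ ((ℓ : ℤ) ∣ a ∧ (ℓ : ℤ) ∣ b) →
    E a b ∣[(1 : ℤ)] γ = E (a * γ 0 0 + b * γ 1 0) (a * γ 0 1 + b * γ 1 1)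
  add_left : ∀ a b : ℤ, ¬ ((ℓ : ℤ) ∣ a ∧ (ℓ : ℤ) ∣ b) → E (a + ℓ) b = E a b
  add_right : ∀ a b : ℤ, ¬ ((ℓ : ℤ) ∣ a ∧ (ℓ : ℤ) ∣ b) → E a (b + ℓ) = E a b
  holo : ∀ b : ℤ, ¬ (ℓ : ℤ) ∣ b → MDiff (E 0 b)
  bdd : ∀ a b : ℤ, 0 ≤ a → a < ℓ → ¬ ((ℓ : ℤ) ∣ a ∧ (ℓ : ℤ) ∣ b) →
    IsBoundedAtImInfty (E a b)
  hasSum : ∀ b : ℤ, ¬ (ℓ : ℤ) ∣ b → ∀ τ : ℍ,
    HasSum (fun N : ℕ => divCoeff ℓ b N * cexp (2 * π * Complex.I * τ) ^ N) (E 0 b τ)

end

end Fermat.Agent.S48.Eis1Arith
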