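/-
S48 (Deligne–Serre), brick D, arithmetic half (D2): packaging.

From the analytic input `D : DivData ℓ` we build, for every weight function
`w : ZMod ℓ → ℂ`, the modular form `combForm D w = ∑_{c ≠ 0} w c • E_(0,c)` of weight one on
`Γ₁(ℓ)`, compute its slash under `Γ₀(ℓ)` and its `q`-expansion coefficients in terms of
`divCoeff`.
-/
import Mathlib
import Fermat.Prelude.Def_FLTPrelim_Modularity
import Fermat.Agent.S48.Eis1Arith.Input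

set_option autoImplicit false

namespace Fermat.Agent.S48.Eis1Arith

open UpperHalfPlane ModularForm CongruenceSubgroup Complex Filter Topology ModularFormClass
open Matrix.SpecialLinearGroup
open scoped MatrixGroups Manifold Real

noncomputable section

namespace DivData

variable {ℓ : ℕ} (D : DivData ℓ)

lemma E_add_mul_left (a b : ℤ) (h : ¬ ((ℓ : ℤ) ∣ a ∧ (ℓ : ℤ) ∣ b)) (k : ℤ) :
    D.E (a + k * ℓ) b = D.E a b := by
  have key : ∀ k : ℤ, ¬ ((ℓ : ℤ) ∣ a + k * ℓ ∧ (ℓ : ℤ) ∣ b) := fun k ⟨h1, h2⟩ =>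
    h ⟨(dvd_add_left (Dvd.intro_left k rfl)).mp h1, h2⟩
  induction k using Int.induction_on with
  | zero => simp
  | succ k ih =>
    rw [show a + ((k : ℤ) + 1) * ℓ = (a + k * ℓ) + ℓ by ring, D.add_left _ _ (key k), ih]
  | pred k ih =>
    have h1 := D.add_left (a + (-(k : ℤ) - 1) * ℓ) b (key _)
    rw [show a + (-(k : ℤ) - 1) * ℓ + ℓ = a + (-(k : ℤ)) * ℓ by ring] at h1
    rw [← h1, ih]

lemma E_add_mul_right (a b : ℤ) (h : ¬ ((ℓ : ℤ) ∣ a ∧ (ℓ : ℤ) ∣ b)) (k : ℤ) :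
    D.E a (b + k * ℓ) = D.E a b := by
  have key : ∀ k : ℤ, ¬ ((ℓ : ℤ) ∣ a ∧ (ℓ : ℤ) ∣ b + k * ℓ) := fun k ⟨h1, h2⟩ =>
    h ⟨h1, (dvd_add_left (Dvd.intro_left k rfl)).mp h2⟩
  induction k using Int.induction_on with
  | zero => simp
  | succ k ih =>
    rw [show b + ((k : ℤ) + 1) * ℓ = (b + k * ℓ) + ℓ by ring, D.add_right _ _ (key k), ih]
  | pred k ih =>
    have h1 := D.add_right a (b + (-(k : ℤ) - 1) * ℓ) (key _)
    rw [show b + (-(k : ℤ) - 1) * ℓ + ℓ = b + (-(k : ℤ)) * ℓ by ring] at h1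
    rw [← h1, ih]

/-- `E_(a,b)` only depends on `(a, b)` modulo `ℓ`. -/
lemma E_congr {a a' b b' : ℤ} (ha : (ℓ : ℤ) ∣ a' - a) (hb : (ℓ : ℤ) ∣ b' - b)
    (h : ¬ ((ℓ : ℤ) ∣ a ∧ (ℓ : ℤ) ∣ b)) : D.E a' b' = D.E a b := by
  obtain ⟨k, hk⟩ := ha
  obtain ⟨m, hm⟩ := hb
  obtain rfl : a' = a + k * ℓ := by linarith
  obtain rfl : b' = b + m * ℓ := by linarith
  have h' : ¬ ((ℓ : ℤ) ∣ a + k * ℓ ∧ (ℓ : ℤ) ∣ b) := fun ⟨h1, h2⟩ =>
    h ⟨(dvd_add_left (Dvd.intro_left k rfl)).mp h1, h2⟩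
  rw [D.E_add_mul_right _ _ h' m, D.E_add_mul_left a b h k]

/-- Boundedness at `i∞` of all division values. -/
lemma bdd' [NeZero ℓ] (a b : ℤ) (h : ¬ ((ℓ : ℤ) ∣ a ∧ (ℓ : ℤ) ∣ b)) :
    IsBoundedAtImInfty (D.E a b) := by
  have hℓ : (0 : ℤ) < ℓ := by exact_mod_cast Nat.pos_of_ne_zero (NeZero.ne ℓ)
  have hdiv : (ℓ : ℤ) ∣ a - a % ℓ := ⟨a / ℓ, by linarith [Int.emod_add_mul_ediv a ℓ]⟩
  have h1 : ¬ ((ℓ : ℤ) ∣ a % ℓ ∧ (ℓ : ℤ) ∣ b) := fun ⟨h1, h2⟩ =>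
    h ⟨by have := dvd_add hdiv h1; rwa [sub_add_cancel] at this, h2⟩
  have e : D.E a b = D.E (a % ℓ) b := D.E_congr hdiv (by simp) h1
  rw [e]
  exact D.bdd _ _ (Int.emod_nonneg _ hℓ.ne') (Int.emod_lt_of_pos _ hℓ) h1

lemma det_eq (γ : SL(2, ℤ)) : γ 0 0 * γ 1 1 - γ 0 1 * γ 1 0 = 1 := by
  have := γ.det_coe
  rwa [Matrix.det_fin_two] at this

/-- The slash of `E_(0,b)` under `Γ₀(ℓ)`. -/
lemma slash_gamma0 (b : ℤ) (hb : ¬ (ℓ : ℤ) ∣ b) (γ : SL(2, ℤ)) (hγ : γ ∈ Gamma0 ℓ) :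
    D.E 0 b ∣[(1 : ℤ)] γ = D.E 0 (b * γ 1 1) := by
  have h10 : (ℓ : ℤ) ∣ γ 1 0 := (ZMod.intCast_zmod_eq_zero_iff_dvd _ _).mp (Gamma0_mem.mp hγ)
  have hd : ¬ (ℓ : ℤ) ∣ b * γ 1 1 := by
    intro h
    apply hb
    have e : b = (b * γ 1 1) * γ 0 0 - γ 1 0 * (b * γ 0 1) := by
      linear_combination (-b) * det_eq γ
    rw [e]
    exact dvd_sub (h.mul_right _) (h10.mul_right _)
  rw [D.slash 0 b γ (fun h => hb h.2)]
  exact D.E_congr (by simpa using h10.mul_left b) (by simp) (fun h => hd h.2)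

variable [NeZero ℓ]

omit D in
lemma not_dvd_val {c : ZMod ℓ} (hc : c ≠ 0) : ¬ (ℓ : ℤ) ∣ (c.val : ℤ) := by
  intro h
  apply hc
  have := (ZMod.intCast_zmod_eq_zero_iff_dvd (c.val : ℤ) ℓ).mpr h
  simpa using this

/-- `E_(0,c)` for `c : ZMod ℓ`, set to zero for `c = 0`. -/
def Ez (c : ZMod ℓ) : ℍ → ℂ := if c = 0 then 0 else D.E 0 (c.val : ℤ)

lemma Ez_slash (c : ZMod ℓ) (γ : SL(2, ℤ)) (hγ : γ ∈ Gamma0 ℓ) :
    D.Ez c ∣[(1 : ℤ)] γ = D.Ez (c * ((γ 1 1 : ℤ) : ZMod ℓ)) := by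
  have h10 : ((γ 1 0 : ℤ) : ZMod ℓ) = 0 := Gamma0_mem.mp hγ
  have hu : ((γ 0 0 : ℤ) : ZMod ℓ) * ((γ 1 1 : ℤ) : ZMod ℓ) = 1 := by
    have := congrArg (fun x : ℤ => (x : ZMod ℓ)) (det_eq γ)
    simpa [h10] using this
  by_cases hc : c = 0
  · simp [Ez, hc]
  · have hcd : c * ((γ 1 1 : ℤ) : ZMod ℓ) ≠ 0 := by
      intro h
      apply hc
      have h2 := congrArg (· * ((γ 0 0 : ℤ) : ZMod ℓ)) h
      simp only [zero_mul, mul_assoc] at h2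
      rwa [mul_comm ((γ 1 1 : ℤ) : ZMod ℓ), hu, mul_one] at h2
    simp only [Ez, if_neg hc, if_neg hcd]
    rw [D.slash_gamma0 _ (not_dvd_val hc) γ hγ]
    refine D.E_congr (by simp) ?_ (fun h => not_dvd_val hcd h.2)
    rw [← ZMod.intCast_zmod_eq_zero_iff_dvd]
    simp

lemma Ez_bdd (c : ZMod ℓ) (γ : SL(2, ℤ)) : IsBoundedAtImInfty (D.Ez c ∣[(1 : ℤ)] γ) := by
  by_cases hc : c = 0
  · simp only [Ez, if_pos hc, SlashAction.zero_slash]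
    exact zero_form_isBoundedAtImInfty
  · simp only [Ez, if_neg hc]
    rw [D.slash 0 _ γ (fun h => not_dvd_val hc h.2)]
    apply D.bdd'
    rintro ⟨h1, h2⟩
    apply not_dvd_val hc
    have e : (c.val : ℤ) = (0 * γ 0 1 + c.val * γ 1 1) * γ 0 0
        - (0 * γ 0 0 + c.val * γ 1 0) * γ 0 1 := by
      linear_combination (-(c.val : ℤ)) * det_eq γ
    rw [e]
    exact dvd_sub (h2.mul_right _) (h1.mul_right _)

lemma Ez_holo (c : ZMod ℓ) : MDiff (D.Ez c) := by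
  by_cases hc : c = 0
  · simp only [Ez, if_pos hc]
    exact mdifferentiable_const
  · simp only [Ez, if_neg hc]
    exact D.holo _ (not_dvd_val hc)

end DivData

/-- The Fourier coefficients of `E_(0,c)`, `c : ZMod ℓ` (zero for `c = 0`). -/
def dz (ℓ : ℕ) (c : ZMod ℓ) (N : ℕ) : ℂ := if c = 0 then 0 else divCoeff ℓ (c.val : ℤ) N

namespace DivData

variable {ℓ : ℕ} (D : DivData ℓ) [NeZero ℓ]

lemma Ez_hasSum (c : ZMod ℓ) (τ : ℍ) :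
    HasSum (fun N : ℕ => dz ℓ c N * cexp (2 * π * Complex.I * τ) ^ N) (D.Ez c τ) := by
  by_cases hc : c = 0
  · simp [Ez, dz, hc, hasSum_zero]
  · simp only [Ez, dz, if_neg hc]
    exact D.hasSum _ (not_dvd_val hc) τ

/-- The linear combination `∑_c w c • E_(0,c)`. -/
def comb (w : ZMod ℓ → ℂ) : ℍ → ℂ := fun τ => ∑ c : ZMod ℓ, w c * D.Ez c τ

lemma comb_slash_apply (w : ZMod ℓ → ℂ) (γ : SL(2, ℤ)) (τ : ℍ) :
    (D.comb w ∣[(1 : ℤ)] γ) τ = ∑ c : ZMod ℓ, w c * (D.Ez c ∣[(1 : ℤ)] γ) τ := by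
  simp only [SL_slash_apply, comb, Finset.sum_mul, mul_assoc]

lemma comb_slash (w : ZMod ℓ → ℂ) (γ : SL(2, ℤ)) (hγ : γ ∈ Gamma0 ℓ) (τ : ℍ) :
    (D.comb w ∣[(1 : ℤ)] γ) τ = ∑ c : ZMod ℓ, w c * D.Ez (c * ((γ 1 1 : ℤ) : ZMod ℓ)) τ := by
  rw [comb_slash_apply]
  refine Finset.sum_congr rfl fun c _ => ?_
  rw [D.Ez_slash c γ hγ]

lemma comb_hasSum (w : ZMod ℓ → ℂ) (τ : ℍ) :
    HasSum (fun N : ℕ => (∑ c : ZMod ℓ, w c * dz ℓ c N) * cexp (2 * π * Complex.I * τ) ^ N)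
      (D.comb w τ) := by
  have h := hasSum_sum (s := Finset.univ) (fun c _ => (D.Ez_hasSum c τ).mul_left (w c))
  have e : (fun N : ℕ => (∑ c : ZMod ℓ, w c * dz ℓ c N) * cexp (2 * π * Complex.I * τ) ^ N)
      = fun N : ℕ => ∑ c : ZMod ℓ, w c * (dz ℓ c N * cexp (2 * π * Complex.I * τ) ^ N) := by
    funext N
    rw [Finset.sum_mul]
    exact Finset.sum_congr rfl fun c _ => by ring
  rw [e]
  exact h

/-- `∑_c w c • E_(0,c)` as a modular form of weight one on `Γ₁(ℓ)`. -/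
def combForm (w : ZMod ℓ → ℂ) : ModularForm (Gamma1 ℓ : Subgroup (GL (Fin 2) ℝ)) 1 where
  toFun := D.comb w
  slash_action_eq' A hA := by
    obtain ⟨γ, hγ, rfl⟩ := hA
    have h11 : ((γ 1 1 : ℤ) : ZMod ℓ) = 1 := ((Gamma1_mem ℓ γ).mp hγ).2.1
    change D.comb w ∣[(1 : ℤ)] γ = _
    funext τ
    rw [D.comb_slash w γ (Gamma1_in_Gamma0 ℓ hγ), h11]
    simp [comb]
  holo' := by
    have e : D.comb w = ∑ c : ZMod ℓ, w c • D.Ez c := by
      funext τ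
      simp [comb]
    have h : MDiff (D.comb w) := by
      rw [e]
      exact MDifferentiable.sum fun c _ => (D.Ez_holo c).const_smul (w c)
    exact h
  bdd_at_cusps' {c} hc := by
    rw [Subgroup.IsArithmetic.isCusp_iff_isCusp_SL2Z] at hc
    rw [OnePoint.isBoundedAt_iff_forall_SL2Z hc]
    intro γ _
    have e : (D.comb w ∣[(1 : ℤ)] γ)
        = ∑ c : ZMod ℓ, fun τ => w c * (D.Ez c ∣[(1 : ℤ)] γ) τ := by
      funext τ
      rw [Finset.sum_apply]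
      exact D.comb_slash_apply w γ τ
    rw [e]
    exact Asymptotics.IsBigO.sum fun c _ => (D.Ez_bdd c γ).const_mul_left (w c)

@[simp] lemma combForm_apply (w : ZMod ℓ → ℂ) (τ : ℍ) : D.combForm w τ = D.comb w τ := rfl

lemma coe_combForm (w : ZMod ℓ → ℂ) : ⇑(D.combForm w) = D.comb w := rfl

/-- The `q`-expansion coefficients of `combForm`. -/
lemma qCoeff_combForm (w : ZMod ℓ → ℂ) (N : ℕ) :
    qCoeff (D.combForm w) N = ∑ c : ZMod ℓ, w c * dz ℓ c N := by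
  have hΓ : (1 : ℝ) ∈ (Gamma1 ℓ : Subgroup (GL (Fin 2) ℝ)).strictPeriods := by
    rw [strictPeriods_Gamma1]
    exact AddSubgroup.mem_zmultiples 1
  have h := ModularFormClass.qExpansion_coeff_unique (h := 1) one_pos hΓ (f := D.combForm w)
    (c := fun N => ∑ c : ZMod ℓ, w c * dz ℓ c N) (fun τ => ?_) N
  · exact h.symm
  · have := D.comb_hasSum w τ
    simpa [Function.Periodic.qParam] using this

end DivData

end

end Fermat.Agent.S48.Eis1Arith
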