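/-
S48 (Deligne–Serre), brick D, arithmetic half (D2): finite Fourier analysis on `ZMod ℓ`.

For a Dirichlet character `χ` mod `ℓ` we put `gs χ c = ∑_a χ(a) e(ac)` (`e = ZMod.stdAddChar`)
and `wt χ c = (2πi)⁻¹ gs χ c`.  For `χ` odd we compute `∑_c wt χ c * dz ℓ c N`:
`-∑_{k<ℓ} χ(k) k` for `N = 0` and `2ℓ ∑_{d ∣ N} χ(d)` for `N ≥ 1`.  No Gauss sum evaluation
and no primitivity is needed: only orthogonality of additive characters.
-/
import Mathlib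
import Fermat.Agent.S48.Eis1Arith.Form

set_option autoImplicit false

namespace Fermat.Agent.S48.Eis1Arith

open Complex Finset
open scoped Real

noncomputable section

variable {ℓ : ℕ} [NeZero ℓ]

local notation "e" => (ZMod.stdAddChar (N := ℓ))

/-- The twisted sums `∑_a χ(a) e(ac)`. -/
def gs (χ : DirichletCharacter ℂ ℓ) (c : ZMod ℓ) : ℂ := ∑ a : ZMod ℓ, χ a * e (a * c)

/-- The weights of the Eisenstein series. -/
def wt (χ : DirichletCharacter ℂ ℓ) (c : ZMod ℓ) : ℂ := (2 * π * I)⁻¹ * gs χ c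

lemma two_pi_I_ne : (2 * π * I : ℂ) ≠ 0 := Complex.two_pi_I_ne_zero

/-- Orthogonality: `∑_c gs χ c * e(kc) = ℓ χ(-k)`. -/
lemma sum_gs_mul (χ : DirichletCharacter ℂ ℓ) (k : ZMod ℓ) :
    ∑ c : ZMod ℓ, gs χ c * e (k * c) = ℓ * χ (-k) := by
  classical
  simp only [gs, Finset.sum_mul]
  rw [Finset.sum_comm]
  have h1 : ∀ a : ZMod ℓ, ∑ c : ZMod ℓ, χ a * e (a * c) * e (k * c)
      = χ a * (if a + k = 0 then (ℓ : ℂ) else 0) := by
    intro a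
    have h2 : ∑ x : ZMod ℓ, e (x * (a + k)) = if a + k = 0 then (ℓ : ℂ) else 0 := by
      have h3 := AddChar.sum_mulShift (a + k) (ZMod.isPrimitive_stdAddChar ℓ)
      rw [ZMod.card] at h3
      rw [h3]
      split_ifs <;> simp
    rw [← h2, Finset.mul_sum]
    refine Finset.sum_congr rfl fun c _ => ?_
    rw [mul_assoc, ← AddChar.map_add_eq_mul]
    congr 2
    ring
  rw [Finset.sum_congr rfl fun a _ => h1 a]
  rw [Finset.sum_eq_single (-k)]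
  · simp [mul_comm]
  · intro a _ ha
    rw [if_neg, mul_zero]
    intro h
    exact ha (eq_neg_of_add_eq_zero_left h)
  · intro h
    exact absurd (Finset.mem_univ _) h

omit [NeZero ℓ] in
lemma chi_zero_of_odd {χ : DirichletCharacter ℂ ℓ} (hχ : χ.Odd) : χ 0 = 0 := by
  have h : χ 0 = -χ 0 := by
    have h1 : χ ((-1) * 0) = χ (-1) * χ 0 := map_mul χ _ _
    rw [mul_zero, hχ] at h1
    linear_combination h1
  have h2 : (2 : ℂ) * χ 0 = 0 := by linear_combination h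
  simpa using h2

omit [NeZero ℓ] in
lemma chi_neg_of_odd {χ : DirichletCharacter ℂ ℓ} (hχ : χ.Odd) (k : ZMod ℓ) :
    χ (-k) = -χ k := by
  rw [← neg_one_mul k, map_mul, hχ]
  ring

lemma gs_zero_of_odd {χ : DirichletCharacter ℂ ℓ} (hχ : χ.Odd) : gs χ 0 = 0 := by
  have h0 : gs χ 0 = ∑ a : ZMod ℓ, χ a := by simp [gs]
  have h1 : ∑ a : ZMod ℓ, χ a = ∑ a : ZMod ℓ, χ (-a) :=
    (Equiv.sum_comp (Equiv.neg (ZMod ℓ)) (fun a => χ a)).symm
  have h2 : ∑ a : ZMod ℓ, χ (-a) = -∑ a : ZMod ℓ, χ a := by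
    rw [← Finset.sum_neg_distrib]
    exact Finset.sum_congr rfl fun a _ => chi_neg_of_odd hχ a
  have h3 : (2 : ℂ) * ∑ a : ZMod ℓ, χ a = 0 := by linear_combination h1.trans h2
  rw [h0]
  simpa using h3

/-- `gs χ (c u) = χ(u)⁻¹ gs χ c` in the form `gs χ c = χ(u) gs χ (c u)`. -/
lemma gs_mul_unit (χ : DirichletCharacter ℂ ℓ) (c : ZMod ℓ) (u : (ZMod ℓ)ˣ) :
    gs χ c = χ u * gs χ (c * u) := by
  simp only [gs, Finset.mul_sum]
  have h := Equiv.sum_comp (Units.mulRight u⁻¹) (fun a : ZMod ℓ => χ u * (χ a * e (a * (c * u))))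
  rw [← h]
  refine Finset.sum_congr rfl fun a _ => ?_
  simp only [Units.mulRight_apply]
  have h1 : a * (u⁻¹ : (ZMod ℓ)ˣ) * (c * u) = a * c := by
    have : ((u⁻¹ : (ZMod ℓ)ˣ) : ZMod ℓ) * u = 1 := Units.inv_mul u
    linear_combination (a * c) * this
  have h2 : χ u * χ (a * (u⁻¹ : (ZMod ℓ)ˣ)) = χ a := by
    rw [← map_mul]
    congr 1
    have : ((u⁻¹ : (ZMod ℓ)ˣ) : ZMod ℓ) * u = 1 := Units.inv_mul u
    linear_combination a * this
  rw [h1, ← mul_assoc, h2]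

lemma wt_mul_unit (χ : DirichletCharacter ℂ ℓ) (c : ZMod ℓ) (u : (ZMod ℓ)ˣ) :
    wt χ c = χ u * wt χ (c * u) := by
  simp only [wt]
  rw [gs_mul_unit χ c u]
  ring

/-! ### The trigonometric values in terms of the standard additive character -/

lemma e_natCast_mul (n : ℕ) (c : ZMod ℓ) :
    e ((n : ZMod ℓ) * c) = cexp (2 * π * I * ((n : ℤ) * (c.val : ℤ) : ℤ) / ℓ) := by
  rw [← ZMod.stdAddChar_coe]
  congr 1
  simp

lemma e_neg_natCast_mul (n : ℕ) (c : ZMod ℓ) :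
    e (-((n : ZMod ℓ) * c)) = cexp (2 * π * I * (-((n : ℤ) * (c.val : ℤ)) : ℤ) / ℓ) := by
  rw [← ZMod.stdAddChar_coe]
  congr 1
  simp

lemma four_pi_sin (n : ℕ) (c : ZMod ℓ) :
    4 * π * Complex.sin (2 * π * n * (c.val : ℤ) / ℓ)
      = -(2 * π * I) * (e ((n : ZMod ℓ) * c) - e (-((n : ZMod ℓ) * c))) := by
  rw [e_natCast_mul, e_neg_natCast_mul, Complex.sin]
  have h1 : (2 * π * I * ((n : ℤ) * (c.val : ℤ) : ℤ) / ℓ : ℂ)
      = (2 * π * n * ((c.val : ℤ) : ℂ) / ℓ) * I := by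
    push_cast
    ring
  have h2 : (2 * π * I * (-((n : ℤ) * (c.val : ℤ)) : ℤ) / ℓ : ℂ)
      = -(2 * π * n * ((c.val : ℤ) : ℂ) / ℓ) * I := by
    push_cast
    ring
  rw [h1, h2]
  ring

lemma e_ne_one {c : ZMod ℓ} (hc : c ≠ 0) : e c ≠ 1 := by
  intro h
  apply hc
  have h0 : e (0 : ZMod ℓ) = 1 := AddChar.map_zero_eq_one _
  exact ZMod.injective_stdAddChar (h.trans h0.symm)

lemma e_pow (c : ZMod ℓ) (k : ℕ) : e c ^ k = e ((k : ZMod ℓ) * c) := by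
  rw [← AddChar.map_nsmul_eq_pow, nsmul_eq_mul]

lemma e_pow_card (c : ZMod ℓ) : e c ^ ℓ = 1 := by
  rw [e_pow]
  simp

/-- `(w - 1) ∑_{k<n} k w^k = n w^n - w ∑_{k<n} w^k`. -/
lemma sub_one_mul_sum (w : ℂ) (n : ℕ) :
    (w - 1) * ∑ k ∈ range n, (k : ℂ) * w ^ k = n * w ^ n - w * ∑ k ∈ range n, w ^ k := by
  induction n with
  | zero => simp
  | succ n ih =>
    rw [Finset.sum_range_succ, mul_add, ih, Finset.sum_range_succ]
    push_cast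
    ring

/-- `1/(e(c) - 1) = (1/ℓ) ∑_{k<ℓ} k e(kc)` for `c ≠ 0`. -/
lemma inv_e_sub_one {c : ZMod ℓ} (hc : c ≠ 0) :
    (e c - 1)⁻¹ = (ℓ : ℂ)⁻¹ * ∑ k ∈ range ℓ, (k : ℂ) * e ((k : ZMod ℓ) * c) := by
  have hw : e c - 1 ≠ 0 := sub_ne_zero.mpr (e_ne_one hc)
  have hℓ : (ℓ : ℂ) ≠ 0 := Nat.cast_ne_zero.mpr (NeZero.ne ℓ)
  have hgeom : ∑ k ∈ range ℓ, e c ^ k = 0 := by
    have h := mul_geom_sum (e c) ℓ
    rw [e_pow_card, sub_self] at h
    exact (mul_eq_zero.mp h).resolve_left hw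
  have h1 := sub_one_mul_sum (e c) ℓ
  rw [hgeom, mul_zero, sub_zero, e_pow_card, mul_one] at h1
  have h2 : ∑ k ∈ range ℓ, (k : ℂ) * e ((k : ZMod ℓ) * c)
      = ∑ k ∈ range ℓ, (k : ℂ) * e c ^ k :=
    Finset.sum_congr rfl fun k _ => by rw [e_pow]
  have h3 : ∑ k ∈ range ℓ, (k : ℂ) * e c ^ k = ℓ / (e c - 1) :=
    eq_div_of_mul_eq hw (by rw [mul_comm]; exact h1)
  rw [h2, h3]
  field_simp

lemma pi_cot {c : ZMod ℓ} (hc : c ≠ 0) :
    π * Complex.cot (π * (c.val : ℤ) / ℓ) = π * I + 2 * π * I * (e c - 1)⁻¹ := by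
  have hw : e c - 1 ≠ 0 := sub_ne_zero.mpr (e_ne_one hc)
  have hw' : 1 - e c ≠ 0 := fun h => hw (by linear_combination -h)
  have h1 : (π * ((c.val : ℤ) : ℂ) / ℓ : ℂ) = π * (((c.val : ℤ) : ℂ) / ℓ) := by ring
  have h2 : cexp (2 * π * I * (((c.val : ℤ) : ℂ) / ℓ)) = e c := by
    have := ZMod.stdAddChar_coe (N := ℓ) (c.val : ℤ)
    rw [show ((c.val : ℤ) : ZMod ℓ) = c by simp] at this
    rw [this]
    congr 1
    ring
  rw [h1, Complex.cot_pi_eq_exp_ratio, h2]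
  have hv : (e c - 1) * (e c - 1)⁻¹ = 1 := mul_inv_cancel₀ hw
  have h3 : (e c + 1) / (I * (1 - e c)) = I + 2 * I * (e c - 1)⁻¹ := by
    rw [div_eq_iff (mul_ne_zero I_ne_zero hw')]
    linear_combination (-(1 + 2 * (e c - 1)⁻¹) * (1 - e c)) * I_sq + (-2) * hv
  rw [h3]
  ring

/-! ### The coefficient sums -/

lemma dz_of_ne_zero (c : ZMod ℓ) {N : ℕ} (hN : N ≠ 0) :
    dz ℓ c N = -(2 * π * I) *
      ∑ n ∈ N.divisors, (e ((n : ZMod ℓ) * c) - e (-((n : ZMod ℓ) * c))) := by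
  rw [Finset.mul_sum]
  by_cases hc : c = 0
  · simp [dz, hc]
  · simp only [dz, if_neg hc, divCoeff, if_neg hN, Finset.mul_sum]
    exact Finset.sum_congr rfl fun n _ => four_pi_sin n c

lemma dz_zero (c : ZMod ℓ) :
    dz ℓ c 0 = if c = 0 then 0 else
      π * I + 2 * π * I * ((ℓ : ℂ)⁻¹ * ∑ k ∈ range ℓ, (k : ℂ) * e ((k : ZMod ℓ) * c)) := by
  by_cases hc : c = 0
  · simp [dz, hc]
  · simp only [dz, if_neg hc, divCoeff, if_true]
    rw [pi_cot hc, inv_e_sub_one hc]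

/-- The higher coefficients: `∑_c wt χ c * dz ℓ c N = 2ℓ ∑_{d ∣ N} χ(d)`. -/
theorem sum_wt_dz {χ : DirichletCharacter ℂ ℓ} (hχ : χ.Odd) {N : ℕ} (hN : N ≠ 0) :
    ∑ c : ZMod ℓ, wt χ c * dz ℓ c N = 2 * ℓ * ∑ d ∈ N.divisors, χ (d : ZMod ℓ) := by
  have h1 : ∀ c : ZMod ℓ, wt χ c * dz ℓ c N
      = -∑ n ∈ N.divisors, (gs χ c * e ((n : ZMod ℓ) * c)
          - gs χ c * e ((-(n : ZMod ℓ)) * c)) := by
    intro c
    rw [dz_of_ne_zero c hN, wt, ← Finset.sum_neg_distrib, Finset.mul_sum, Finset.mul_sum]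
    refine Finset.sum_congr rfl fun n _ => ?_
    rw [neg_mul (n : ZMod ℓ) c]
    field_simp [two_pi_I_ne]
  rw [Finset.sum_congr rfl fun c _ => h1 c, Finset.sum_neg_distrib, Finset.sum_comm,
    Finset.mul_sum, ← Finset.sum_neg_distrib]
  refine Finset.sum_congr rfl fun n _ => ?_
  rw [Finset.sum_sub_distrib, sum_gs_mul, sum_gs_mul, neg_neg, chi_neg_of_odd hχ]
  ring

/-- The constant coefficient: `∑_c wt χ c * dz ℓ c 0 = -∑_{k<ℓ} χ(k) k`. -/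
theorem sum_wt_dz_zero {χ : DirichletCharacter ℂ ℓ} (hχ : χ.Odd) :
    ∑ c : ZMod ℓ, wt χ c * dz ℓ c 0 = -∑ k ∈ range ℓ, χ (k : ZMod ℓ) * k := by
  have hℓ : (ℓ : ℂ) ≠ 0 := Nat.cast_ne_zero.mpr (NeZero.ne ℓ)
  have h1 : ∀ c : ZMod ℓ, wt χ c * dz ℓ c 0
      = 2⁻¹ * (gs χ c * e ((0 : ZMod ℓ) * c))
        + (ℓ : ℂ)⁻¹ * ∑ k ∈ range ℓ, (k : ℂ) * (gs χ c * e ((k : ZMod ℓ) * c)) := by
    intro c
    by_cases hc : c = 0
    · subst hc
      simp [dz, gs_zero_of_odd hχ]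
    · rw [dz_zero, if_neg hc, wt]
      have h2 : ∑ k ∈ range ℓ, (k : ℂ) * (gs χ c * e ((k : ZMod ℓ) * c))
          = gs χ c * ∑ k ∈ range ℓ, (k : ℂ) * e ((k : ZMod ℓ) * c) := by
        rw [Finset.mul_sum]
        exact Finset.sum_congr rfl fun k _ => by ring
      rw [h2, zero_mul, AddChar.map_zero_eq_one]
      field_simp [two_pi_I_ne]
  rw [Finset.sum_congr rfl fun c _ => h1 c, Finset.sum_add_distrib, ← Finset.mul_sum,
    ← Finset.mul_sum, sum_gs_mul, Finset.sum_comm]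
  have h3 : ∀ k ∈ range ℓ, ∑ c : ZMod ℓ, (k : ℂ) * (gs χ c * e ((k : ZMod ℓ) * c))
      = (ℓ : ℂ) * (-(χ (k : ZMod ℓ) * k)) := by
    intro k _
    rw [← Finset.mul_sum, sum_gs_mul, chi_neg_of_odd hχ]
    ring
  rw [Finset.sum_congr rfl h3, ← Finset.mul_sum, neg_zero, chi_zero_of_odd hχ,
    Finset.sum_neg_distrib]
  field_simp
  ring

end

end Fermat.Agent.S48.Eis1Arith
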