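/-
S48 (Deligne–Serre), brick D, arithmetic half (D2): the weight one Eisenstein series with an
odd character, integral normalisation.

From the analytic input `D : DivData ℓ` (brick D1) and an odd Dirichlet character `χ` mod `ℓ`:

* `eis D χ : ModularForm (Gamma1 ℓ) 1`,
* `qCoeff_eis_zero`: constant coefficient `-∑_{a<ℓ} χ(a) a`  (`= -ℓ B_{1,χ}`),
* `qCoeff_eis`: `N`-th coefficient `2ℓ ∑_{d ∣ N} χ(d)` for `N ≥ 1`,
* `eis_slash`: nebentypus `χ` on `Γ₀(ℓ)`.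

(`eis D χ = ℓ · E₁^{1,χ}`, `E₁^{1,χ} = L(0,χ) + 2 ∑ σ_χ(n) qⁿ`.)
-/
import Mathlib
import Fermat.Prelude.Def_FLTPrelim_Modularity
import Fermat.Agent.S48.Eis1Arith.Trig

set_option autoImplicit false

namespace Fermat.Agent.S48.Eis1Arith

open UpperHalfPlane ModularForm CongruenceSubgroup Complex ModularFormClass
open scoped MatrixGroups Manifold Real

noncomputable section

variable {ℓ : ℕ} [NeZero ℓ]

/-- The weight one Eisenstein series of level `ℓ` attached to the Dirichlet character `χ`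
(of interest for `χ` odd), normalised to have `q`-expansion
`-∑_{a<ℓ} χ(a) a + 2ℓ ∑_{N ≥ 1} (∑_{d ∣ N} χ(d)) q^N`. -/
def eis (D : DivData ℓ) (χ : DirichletCharacter ℂ ℓ) :
    ModularForm (Gamma1 ℓ : Subgroup (GL (Fin 2) ℝ)) 1 :=
  D.combForm (wt χ)

/-- The constant coefficient of `eis D χ`. -/
theorem qCoeff_eis_zero (D : DivData ℓ) {χ : DirichletCharacter ℂ ℓ} (hχ : χ.Odd) :
    qCoeff (eis D χ) 0 = -∑ a ∈ Finset.range ℓ, χ (a : ZMod ℓ) * a := by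
  rw [eis, D.qCoeff_combForm, sum_wt_dz_zero hχ]

/-- The higher coefficients of `eis D χ`. -/
theorem qCoeff_eis (D : DivData ℓ) {χ : DirichletCharacter ℂ ℓ} (hχ : χ.Odd) {N : ℕ}
    (hN : N ≠ 0) :
    qCoeff (eis D χ) N = 2 * ℓ * ∑ d ∈ N.divisors, χ (d : ZMod ℓ) := by
  rw [eis, D.qCoeff_combForm, sum_wt_dz hχ hN]

/-- The nebentypus of `eis D χ` is `χ`: for `γ ∈ Γ₀(ℓ)` with lower right entry `d`,
`eis D χ ∣[1] γ = χ(d) • eis D χ`. -/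
theorem eis_slash (D : DivData ℓ) (χ : DirichletCharacter ℂ ℓ) (γ : SL(2, ℤ))
    (hγ : γ ∈ Gamma0 ℓ) :
    (⇑(eis D χ)) ∣[(1 : ℤ)] γ = χ ((γ 1 1 : ℤ) : ZMod ℓ) • ⇑(eis D χ) := by
  have h10 : ((γ 1 0 : ℤ) : ZMod ℓ) = 0 := Gamma0_mem.mp hγ
  have hu : ((γ 1 1 : ℤ) : ZMod ℓ) * ((γ 0 0 : ℤ) : ZMod ℓ) = 1 := by
    have := congrArg (fun x : ℤ => (x : ZMod ℓ)) (DivData.det_eq γ)
    simp only [Int.cast_sub, Int.cast_mul, h10, mul_zero, sub_zero, Int.cast_one] at this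
    rw [mul_comm]
    exact this
  set u : (ZMod ℓ)ˣ := Units.mkOfMulEqOne _ _ hu with hu_def
  have hval : ((u : (ZMod ℓ)ˣ) : ZMod ℓ) = ((γ 1 1 : ℤ) : ZMod ℓ) := rfl
  funext τ
  change (D.comb (wt χ) ∣[(1 : ℤ)] γ) τ = χ ((γ 1 1 : ℤ) : ZMod ℓ) * D.comb (wt χ) τ
  rw [D.comb_slash (wt χ) γ hγ, ← hval]
  simp only [DivData.comb, Finset.mul_sum]
  rw [← Equiv.sum_comp (Units.mulRight u)
    (fun c : ZMod ℓ => χ (u : ZMod ℓ) * (wt χ c * D.Ez c τ))]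
  refine Finset.sum_congr rfl fun c _ => ?_
  simp only [Units.mulRight_apply]
  rw [wt_mul_unit χ c u]
  ring

/-- `eis D χ` is invariant under `Γ₁(ℓ)` (restatement for `SL(2, ℤ)` elements). -/
theorem eis_slash_gamma1 (D : DivData ℓ) (χ : DirichletCharacter ℂ ℓ) (γ : SL(2, ℤ))
    (hγ : γ ∈ Gamma1 ℓ) :
    (⇑(eis D χ)) ∣[(1 : ℤ)] γ = ⇑(eis D χ) := by
  have h11 : ((γ 1 1 : ℤ) : ZMod ℓ) = 1 := ((Gamma1_mem ℓ γ).mp hγ).2.1
  rw [eis_slash D χ γ (Gamma1_in_Gamma0 ℓ hγ), h11, map_one, one_smul]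

end

end Fermat.Agent.S48.Eis1Arith
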