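/-
S48 (Deligne–Serre), brick D, arithmetic half (D2): the Eisenstein series congruent to `1`.

`𝔸 = integralClosure ℤ ℂ`, `r : 𝔸 →+* k` with `k` a field of characteristic `ℓ` (an odd prime).

* `exists_teich_inv` : a character `ψ : (ZMod ℓ)ˣ →* 𝔸ˣ` with `r (ψ u) * u = 1` in `k`
  (the inverse of the Teichmüller character with respect to `r`);
* `exists_teich_inv_char` : the same as an odd Dirichlet character `χ = ω⁻¹` with integral
  values `X`;
* `exists_eis_congr` : for `χ = ω⁻¹`, the Eisenstein series `eis D χ` has all its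
  `q`-coefficients in `𝔸`, its constant coefficient reduces to `1` and all its higher
  coefficients reduce to `0` under `r`.  Hence `f * eis D χ ≡ f` coefficientwise modulo `ker r`
  for every `f` with coefficients in `𝔸`.
-/
import Mathlib
import Fermat.Prelude.Def_FLTPrelim_Modularity
import Fermat.Agent.S48.UnityRed
import Fermat.Agent.S48.Eis1Arith.Main

set_option autoImplicit false

namespace Fermat.Agent.S48.Eis1Arith

open ModularFormClass

noncomputable section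

local notation "𝔸" => integralClosure ℤ ℂ

variable {ℓ : ℕ} [Fact ℓ.Prime] {k : Type*} [Field k] [CharP k ℓ]

/-- The inverse Teichmüller character with respect to `r`. -/
theorem exists_teich_inv (r : 𝔸 →+* k) :
    ∃ ψ : (ZMod ℓ)ˣ →* 𝔸ˣ, ∀ u : (ZMod ℓ)ˣ,
      r (ψ u : 𝔸) * ZMod.castHom (dvd_refl ℓ) k (u : ZMod ℓ) = 1 := by
  have hℓ : ℓ.Prime := Fact.out
  obtain ⟨g, hg⟩ := IsCyclic.exists_generator (α := (ZMod ℓ)ˣ)
  let φ : (ZMod ℓ)ˣ →* kˣ := Units.map (ZMod.castHom (dvd_refl ℓ) k).toMonoidHom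
  have hn : (((ℓ - 1 : ℕ) : ℕ) : k) ≠ 0 := by
    rw [Nat.cast_sub hℓ.one_le, CharP.cast_eq_zero k ℓ]
    simp
  have hz : (((φ g)⁻¹ : kˣ) : k) ^ (ℓ - 1) = 1 := by
    rw [← Units.val_pow_eq_pow_val, inv_pow, ← map_pow, ZMod.units_pow_card_sub_one_eq_one,
      map_one, inv_one, Units.val_one]
  obtain ⟨x, hx1, hx2⟩ := Fermat.Agent.S48.UnityRed.exists_pow_eq_one_map_eq r hn hz
  have hℓ1 : ℓ - 1 ≠ 0 := by have := hℓ.two_le; omega
  let xu : 𝔸ˣ := Units.ofPowEqOne x (ℓ - 1) hx1 hℓ1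
  have hxu : xu ^ (ℓ - 1) = 1 := Units.pow_ofPowEqOne hx1 hℓ1
  have hord : orderOf xu ∣ orderOf g := by
    rw [orderOf_eq_card_of_forall_mem_zpowers hg, Nat.card_eq_fintype_card, ZMod.card_units]
    exact orderOf_dvd_of_pow_eq_one hxu
  let ψ : (ZMod ℓ)ˣ →* 𝔸ˣ := monoidHomOfForallMemZpowers hg hord
  have hψg : ψ g = xu := monoidHomOfForallMemZpowers_apply_gen hg hord
  have hgen : Units.map r.toMonoidHom (ψ g) = (φ g)⁻¹ := by
    rw [hψg]
    exact Units.ext hx2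
  have hall : ∀ u : (ZMod ℓ)ˣ, Units.map r.toMonoidHom (ψ u) = (φ u)⁻¹ := by
    intro u
    obtain ⟨j, rfl⟩ := Subgroup.mem_zpowers_iff.mp (hg u)
    rw [map_zpow, map_zpow, map_zpow, hgen, inv_zpow]
  refine ⟨ψ, fun u => ?_⟩
  have h1 := congrArg (fun v : kˣ => (v : k)) (hall u)
  have h2 : r (ψ u : 𝔸) = (((φ u)⁻¹ : kˣ) : k) := h1
  have h3 : ZMod.castHom (dvd_refl ℓ) k (u : ZMod ℓ) = ((φ u : kˣ) : k) := rfl
  rw [h2, h3, ← Units.val_mul, inv_mul_cancel, Units.val_one]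

/-- The inverse Teichmüller character as an odd Dirichlet character with integral values. -/
theorem exists_teich_inv_char (hℓ2 : ℓ ≠ 2) (r : 𝔸 →+* k) :
    ∃ (χ : DirichletCharacter ℂ ℓ) (X : ZMod ℓ → 𝔸), χ.Odd ∧ (∀ a, (X a : ℂ) = χ a) ∧
      ∀ a : ℕ, ¬ ℓ ∣ a → r (X (a : ZMod ℓ)) * (a : k) = 1 := by
  classical
  have hℓ : ℓ.Prime := Fact.out
  obtain ⟨ψ, hψ⟩ := exists_teich_inv (ℓ := ℓ) r
  let ι : 𝔸ˣ →* ℂˣ := Units.map (algebraMap 𝔸 ℂ).toMonoidHom
  let χ : DirichletCharacter ℂ ℓ := MulChar.ofUnitHom (ι.comp ψ)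
  let X : ZMod ℓ → 𝔸 := fun a => if h : IsUnit a then (ψ h.unit : 𝔸) else 0
  have hX : ∀ a, (X a : ℂ) = χ a := by
    intro a
    by_cases h : IsUnit a
    · have h1 : χ a = ((ι.comp ψ) h.unit : ℂˣ) := by
        have := MulChar.ofUnitHom_coe (ι.comp ψ) h.unit
        rwa [IsUnit.unit_spec] at this
      simp only [X, dif_pos h, h1]
      rfl
    · simp only [X, dif_neg h]
      rw [MulChar.map_nonunit χ h]
      rfl
  have hXu : ∀ u : (ZMod ℓ)ˣ, X (u : ZMod ℓ) = (ψ u : 𝔸) := by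
    intro u
    have h : IsUnit (u : ZMod ℓ) := u.isUnit
    simp only [X, dif_pos h]
    congr 2
    exact Units.ext rfl
  have hodd : χ.Odd := by
    have hsq : ((ψ (-1) : 𝔸ˣ) : 𝔸) ^ 2 = 1 := by
      rw [← Units.val_pow_eq_pow_val, ← map_pow]
      simp
    have h1 := hψ (-1)
    rcases sq_eq_one_iff.mp hsq with h | h
    · exfalso
      rw [h, map_one, one_mul] at h1
      simp only [Units.val_neg, Units.val_one, map_neg, map_one] at h1
      have h2 : (2 : k) = 0 := by linear_combination -h1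
      have h3 : ((2 : ℕ) : k) = 0 := by exact_mod_cast h2
      have h4 : ℓ ∣ 2 := (CharP.cast_eq_zero_iff k ℓ 2).mp h3
      exact hℓ2 ((Nat.prime_dvd_prime_iff_eq hℓ Nat.prime_two).mp h4)
    · have h5 : χ (-1) = (X (-1) : ℂ) := (hX (-1)).symm
      have h6 : X (-1) = (ψ (-1) : 𝔸) := by
        have := hXu (-1)
        simpa using this
      show χ (-1) = -1
      rw [h5, h6, h]
      simp
  refine ⟨χ, X, hodd, hX, fun a ha => ?_⟩
  have hcop : Nat.Coprime a ℓ := ((Nat.Prime.coprime_iff_not_dvd hℓ).mpr ha).symm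
  have h1 := hψ (ZMod.unitOfCoprime a hcop)
  rw [← hXu, ZMod.coe_unitOfCoprime] at h1
  simpa using h1

/-- **Exit of brick D (congruence form).**  For an odd prime `ℓ`, a field `k` of characteristic
`ℓ` and a ring homomorphism `r : 𝔸 →+* k`, the Eisenstein series `eis D χ` attached to
`χ = ω⁻¹` (the inverse Teichmüller character for `r`) has integral coefficients `c n`, with
`r (c 0) = 1` and `r (c n) = 0` for `n ≥ 1`. -/
theorem exists_eis_congr (hℓ2 : ℓ ≠ 2) (D : DivData ℓ) (r : 𝔸 →+* k) :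
    ∃ (χ : DirichletCharacter ℂ ℓ) (X : ZMod ℓ → 𝔸) (c : ℕ → 𝔸), χ.Odd ∧
      (∀ a, (X a : ℂ) = χ a) ∧
      (∀ a : ℕ, ¬ ℓ ∣ a → r (X (a : ZMod ℓ)) * (a : k) = 1) ∧
      (∀ n, qCoeff (eis D χ) n = (c n : ℂ)) ∧ r (c 0) = 1 ∧ ∀ n, n ≠ 0 → r (c n) = 0 := by
  have hℓ : ℓ.Prime := Fact.out
  obtain ⟨χ, X, hodd, hX, hr⟩ := exists_teich_inv_char hℓ2 r
  let c : ℕ → 𝔸 := fun n =>
    if n = 0 then -∑ a ∈ Finset.range ℓ, X (a : ZMod ℓ) * (a : 𝔸)
    else ((2 * ℓ : ℕ) : 𝔸) * ∑ d ∈ n.divisors, X (d : ZMod ℓ)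
  refine ⟨χ, X, c, hodd, hX, hr, fun n => ?_, ?_, fun n hn => ?_⟩
  · by_cases hn : n = 0
    · subst hn
      rw [qCoeff_eis_zero D hodd]
      simp only [c, if_true]
      push_cast
      simp only [hX]
    · rw [qCoeff_eis D hodd hn]
      simp only [c, if_neg hn]
      rw [Subalgebra.coe_mul, SubringClass.coe_natCast, AddSubmonoidClass.coe_finsetSum]
      simp only [hX]
      push_cast
      ring
  · simp only [c, if_true, map_neg, map_sum, map_mul, map_natCast]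
    obtain ⟨m, rfl⟩ : ∃ m, ℓ = m + 1 := ⟨ℓ - 1, by have := hℓ.two_le; omega⟩
    rw [Finset.sum_range_succ']
    simp only [Nat.cast_zero, mul_zero, add_zero]
    have h1 : ∀ a ∈ Finset.range m,
        r (X ((a + 1 : ℕ) : ZMod (m + 1))) * ((a + 1 : ℕ) : k) = 1 := by
      intro a ha
      apply hr
      have := Finset.mem_range.mp ha
      exact Nat.not_dvd_of_pos_of_lt (Nat.succ_pos a) (by omega)
    rw [Finset.sum_congr rfl h1]
    simp only [Finset.sum_const, Finset.card_range, nsmul_eq_mul, mul_one]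
    have h2 : ((m + 1 : ℕ) : k) = 0 := CharP.cast_eq_zero k (m + 1)
    push_cast at h2
    linear_combination -h2
  · simp only [c, if_neg hn, map_mul, map_natCast]
    rw [Nat.cast_mul, CharP.cast_eq_zero k ℓ]
    ring

end

end Fermat.Agent.S48.Eis1Arith
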