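/-
S48 (Deligne–Serre), brick D, arithmetic half (D2): the RATIONAL family `eisH D a`.

For `D : DivData ℓ` (any level `ℓ ≥ 1`) and `a : ZMod ℓ`,

  `eisH D a = -(1/(2πℓ)) ∑_{c mod ℓ, c ≠ 0} sin(2π a c/ℓ) • E_(0,c)`

is a modular form of weight one on `Γ₁(ℓ)` with

* `qCoeff (eisH D a) 0 = a.val/ℓ - 1/2`  (`a ≠ 0`),
* `qCoeff (eisH D a) M = -(#{d ∣ M : d ≡ a} - #{d ∣ M : d ≡ -a})`  (`M ≥ 1`),
* `eisH D a ∣[1] γ = eisH D (a * γ₀₀)` for `γ ∈ Γ₀(ℓ)`.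
-/
import Mathlib
import Fermat.Prelude.Def_FLTPrelim_Modularity
import Fermat.Agent.S48.Eis1Arith.Trig

set_option autoImplicit false

namespace Fermat.Agent.S48.Eis1Arith

open UpperHalfPlane ModularForm CongruenceSubgroup Complex ModularFormClass Finset
open scoped MatrixGroups Manifold Real

noncomputable section

variable {ℓ : ℕ} [NeZero ℓ]

local notation "e" => (ZMod.stdAddChar (N := ℓ))

/-- The weights of `eisH`: `wH a c = -(1/(2πℓ)) sin(2π a c/ℓ)`, in exponential form. -/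
def wH (a c : ZMod ℓ) : ℂ := Complex.I / (4 * π * ℓ) * (e (a * c) - e (-(a * c)))

/-- Orthogonality of the standard additive character. -/
lemma sum_e_mul (k : ZMod ℓ) : ∑ c : ZMod ℓ, e (k * c) = if k = 0 then (ℓ : ℂ) else 0 := by
  classical
  have h3 := AddChar.sum_mulShift k (ZMod.isPrimitive_stdAddChar ℓ)
  rw [ZMod.card] at h3
  have h4 : ∑ c : ZMod ℓ, e (k * c) = ∑ c : ZMod ℓ, e (c * k) :=
    Finset.sum_congr rfl fun c _ => by rw [mul_comm]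
  rw [h4, h3]
  split_ifs <;> simp

lemma wH_zero_right (a : ZMod ℓ) : wH a 0 = 0 := by simp [wH]

lemma wH_mul (a c d : ZMod ℓ) : wH a (c * d) = wH (a * d) c := by
  simp only [wH]
  rw [show a * (c * d) = a * d * c by ring]

/-- The rational weight one Eisenstein family of level `ℓ`. -/
def eisH (D : DivData ℓ) (a : ZMod ℓ) : ModularForm (Gamma1 ℓ : Subgroup (GL (Fin 2) ℝ)) 1 :=
  D.combForm (wH a)

/-- The `Γ₀(ℓ)`-law: `eisH D a ∣[1] γ = eisH D (a * γ₀₀)`. -/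
theorem eisH_slash (D : DivData ℓ) (a : ZMod ℓ) (γ : SL(2, ℤ)) (hγ : γ ∈ Gamma0 ℓ) :
    (⇑(eisH D a)) ∣[(1 : ℤ)] γ = ⇑(eisH D (a * ((γ 0 0 : ℤ) : ZMod ℓ))) := by
  have h10 : ((γ 1 0 : ℤ) : ZMod ℓ) = 0 := Gamma0_mem.mp hγ
  have hu : ((γ 1 1 : ℤ) : ZMod ℓ) * ((γ 0 0 : ℤ) : ZMod ℓ) = 1 := by
    have := congrArg (fun x : ℤ => (x : ZMod ℓ)) (DivData.det_eq γ)
    simp only [Int.cast_sub, Int.cast_mul, h10, mul_zero, sub_zero, Int.cast_one] at this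
    rw [mul_comm]
    exact this
  set u : (ZMod ℓ)ˣ := Units.mkOfMulEqOne _ _ hu with hu_def
  have hval : ((u : (ZMod ℓ)ˣ) : ZMod ℓ) = ((γ 1 1 : ℤ) : ZMod ℓ) := rfl
  funext τ
  change (D.comb (wH a) ∣[(1 : ℤ)] γ) τ = D.comb (wH (a * ((γ 0 0 : ℤ) : ZMod ℓ))) τ
  rw [D.comb_slash (wH a) γ hγ, ← hval]
  simp only [DivData.comb]
  rw [← Equiv.sum_comp (Units.mulRight u)
    (fun c : ZMod ℓ => wH (a * ((γ 0 0 : ℤ) : ZMod ℓ)) c * D.Ez c τ)]
  refine Finset.sum_congr rfl fun c _ => ?_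
  simp only [Units.mulRight_apply]
  rw [← wH_mul, hval, mul_assoc, hu, mul_one]

/-- The higher coefficients of `eisH`, as a sum of indicator functions. -/
lemma sum_wH_dz [DecidableEq (ZMod ℓ)] (a : ZMod ℓ) {M : ℕ} (hM : M ≠ 0) :
    ∑ c : ZMod ℓ, wH a c * dz ℓ c M
      = ∑ d ∈ M.divisors, ((if (d : ZMod ℓ) = -a then (1 : ℂ) else 0)
          - (if (d : ZMod ℓ) = a then (1 : ℂ) else 0)) := by
  have hℓ : (ℓ : ℂ) ≠ 0 := Nat.cast_ne_zero.mpr (NeZero.ne ℓ)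
  have hπ : (π : ℂ) ≠ 0 := Complex.ofReal_ne_zero.mpr Real.pi_ne_zero
  have h1 : ∀ c : ZMod ℓ, wH a c * dz ℓ c M
      = (2 * (ℓ : ℂ))⁻¹ * ∑ n ∈ M.divisors,
          (e ((a + n) * c) - e ((a - n) * c) - e ((n - a) * c) + e ((-a - n) * c)) := by
    intro c
    rw [dz_of_ne_zero c hM, wH, Finset.mul_sum, Finset.mul_sum, Finset.mul_sum]
    refine Finset.sum_congr rfl fun n _ => ?_
    have e1 : e ((a + n) * c) = e (a * c) * e ((n : ZMod ℓ) * c) := by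
      rw [← AddChar.map_add_eq_mul]; congr 1; ring
    have e2 : e ((a - n) * c) = e (a * c) * e (-((n : ZMod ℓ) * c)) := by
      rw [← AddChar.map_add_eq_mul]; congr 1; ring
    have e3 : e (((n : ZMod ℓ) - a) * c) = e (-(a * c)) * e ((n : ZMod ℓ) * c) := by
      rw [← AddChar.map_add_eq_mul]; congr 1; ring
    have e4 : e ((-a - n) * c) = e (-(a * c)) * e (-((n : ZMod ℓ) * c)) := by
      rw [← AddChar.map_add_eq_mul]; congr 1; ring
    rw [e1, e2, e3, e4]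
    field_simp
    linear_combination (-4 * (e (a * c) - e (-(a * c)))
      * (e ((n : ZMod ℓ) * c) - e (-((n : ZMod ℓ) * c)))) * I_sq
  rw [Finset.sum_congr rfl fun c _ => h1 c, ← Finset.mul_sum, Finset.sum_comm, Finset.mul_sum]
  refine Finset.sum_congr rfl fun n _ => ?_
  rw [Finset.sum_add_distrib, Finset.sum_sub_distrib, Finset.sum_sub_distrib,
    sum_e_mul, sum_e_mul, sum_e_mul, sum_e_mul]
  have c1 : (a + (n : ZMod ℓ) = 0) ↔ ((n : ZMod ℓ) = -a) :=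
    ⟨fun h => eq_neg_of_add_eq_zero_right h, fun h => by rw [h]; ring⟩
  have c2 : (a - (n : ZMod ℓ) = 0) ↔ ((n : ZMod ℓ) = a) :=
    ⟨fun h => (sub_eq_zero.mp h).symm, fun h => by rw [h]; ring⟩
  have c3 : ((n : ZMod ℓ) - a = 0) ↔ ((n : ZMod ℓ) = a) :=
    ⟨fun h => sub_eq_zero.mp h, fun h => by rw [h]; ring⟩
  have c4 : (-a - (n : ZMod ℓ) = 0) ↔ ((n : ZMod ℓ) = -a) :=
    ⟨fun h => (sub_eq_zero.mp h).symm, fun h => by rw [h]; ring⟩
  simp only [c1, c2, c3, c4]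
  have hx : ∀ (p : Prop) [Decidable p], (if p then (ℓ : ℂ) else 0) = ℓ * (if p then 1 else 0) := by
    intro p _
    split_ifs <;> simp
  rw [hx ((n : ZMod ℓ) = -a), hx ((n : ZMod ℓ) = a)]
  field_simp
  ring

/-- The higher coefficients of `eisH D a`:
`-(#{d ∣ M : d ≡ a} - #{d ∣ M : d ≡ -a})`. -/
theorem qCoeff_eisH (D : DivData ℓ) (a : ZMod ℓ) {M : ℕ} (hM : M ≠ 0) :
    qCoeff (eisH D a) M
      = -(((M.divisors.filter fun d : ℕ => (d : ZMod ℓ) = a).card : ℂ)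
          - ((M.divisors.filter fun d : ℕ => (d : ZMod ℓ) = -a).card : ℂ)) := by
  classical
  rw [eisH, D.qCoeff_combForm, sum_wH_dz a hM, Finset.sum_sub_distrib, Finset.sum_boole,
    Finset.sum_boole]
  ring

omit [NeZero ℓ] in
lemma sum_range_ite [NeZero ℓ] [DecidableEq (ZMod ℓ)] (x : ZMod ℓ) :
    ∑ k ∈ range ℓ, (k : ℂ) * (if (k : ZMod ℓ) = x then (ℓ : ℂ) else 0) = x.val * ℓ := by
  rw [Finset.sum_eq_single x.val]
  · rw [ZMod.natCast_zmod_val, if_pos rfl]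
  · intro k hk hne
    rw [if_neg, mul_zero]
    intro h
    apply hne
    rw [← h, ZMod.val_natCast_of_lt (Finset.mem_range.mp hk)]
  · intro h
    exact absurd (Finset.mem_range.mpr (ZMod.val_lt x)) h

/-- The constant coefficient of `eisH D a`, general form. -/
lemma sum_wH_dz_zero (a : ZMod ℓ) :
    ∑ c : ZMod ℓ, wH a c * dz ℓ c 0 = ((a.val : ℂ) - ((-a).val : ℂ)) / (2 * ℓ) := by
  classical
  have hℓ : (ℓ : ℂ) ≠ 0 := Nat.cast_ne_zero.mpr (NeZero.ne ℓ)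
  have hπ : (π : ℂ) ≠ 0 := Complex.ofReal_ne_zero.mpr Real.pi_ne_zero
  have h1 : ∀ c : ZMod ℓ, wH a c * dz ℓ c 0
      = -(4 * (ℓ : ℂ))⁻¹ * (e (a * c) - e ((-a) * c))
        - (2 * (ℓ : ℂ) ^ 2)⁻¹ * ∑ k ∈ range ℓ, (k : ℂ) * (e ((a + k) * c) - e ((k - a) * c)) := by
    intro c
    by_cases hc : c = 0
    · subst hc
      simp [wH_zero_right]
    · rw [dz_zero, if_neg hc, wH]
      have h2 : ∑ k ∈ range ℓ, (k : ℂ) * (e ((a + k) * c) - e ((k - a) * c))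
          = (e (a * c) - e (-(a * c))) * ∑ k ∈ range ℓ, (k : ℂ) * e ((k : ZMod ℓ) * c) := by
        rw [Finset.mul_sum]
        refine Finset.sum_congr rfl fun k _ => ?_
        have e1 : e ((a + k) * c) = e (a * c) * e ((k : ZMod ℓ) * c) := by
          rw [← AddChar.map_add_eq_mul]; congr 1; ring
        have e3 : e (((k : ZMod ℓ) - a) * c) = e (-(a * c)) * e ((k : ZMod ℓ) * c) := by
          rw [← AddChar.map_add_eq_mul]; congr 1; ring
        rw [e1, e3]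
        ring
      rw [h2, neg_mul a c]
      field_simp
      linear_combination (2 * (e (a * c) - e (-(a * c))) * ((ℓ : ℂ)
        + 2 * ∑ k ∈ range ℓ, (k : ℂ) * e ((k : ZMod ℓ) * c))) * I_sq
  rw [Finset.sum_congr rfl fun c _ => h1 c, Finset.sum_sub_distrib, ← Finset.mul_sum,
    ← Finset.mul_sum, Finset.sum_sub_distrib, sum_e_mul, sum_e_mul, Finset.sum_comm]
  have h3 : ∀ k ∈ range ℓ, ∑ c : ZMod ℓ, (k : ℂ) * (e ((a + k) * c) - e ((k - a) * c))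
      = (k : ℂ) * (if (k : ZMod ℓ) = -a then (ℓ : ℂ) else 0)
        - (k : ℂ) * (if (k : ZMod ℓ) = a then (ℓ : ℂ) else 0) := by
    intro k _
    rw [← Finset.mul_sum, Finset.sum_sub_distrib, sum_e_mul, sum_e_mul, mul_sub]
    have c1 : (a + (k : ZMod ℓ) = 0) ↔ ((k : ZMod ℓ) = -a) :=
      ⟨fun h => eq_neg_of_add_eq_zero_right h, fun h => by rw [h]; ring⟩
    have c3 : ((k : ZMod ℓ) - a = 0) ↔ ((k : ZMod ℓ) = a) :=
      ⟨fun h => sub_eq_zero.mp h, fun h => by rw [h]; ring⟩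
    simp only [c1, c3]
  rw [Finset.sum_congr rfl h3, Finset.sum_sub_distrib, sum_range_ite, sum_range_ite]
  have c5 : (-a = 0) ↔ (a = 0) := neg_eq_zero
  simp only [c5, sub_self, mul_zero]
  field_simp
  ring

/-- The constant coefficient of `eisH D a` for `a ≠ 0`: `a/ℓ - 1/2`. -/
theorem qCoeff_eisH_zero (D : DivData ℓ) {a : ZMod ℓ} (ha : a ≠ 0) :
    qCoeff (eisH D a) 0 = (a.val : ℂ) / ℓ - 1 / 2 := by
  have hℓ : (ℓ : ℂ) ≠ 0 := Nat.cast_ne_zero.mpr (NeZero.ne ℓ)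
  rw [eisH, D.qCoeff_combForm, sum_wH_dz_zero, ZMod.neg_val, if_neg ha,
    Nat.cast_sub (ZMod.val_lt a).le]
  field_simp
  ring

end

end Fermat.Agent.S48.Eis1Arith
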